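import Fermat.Agent.FF.Norm

/-!
# Fundamental identity and norm formula for finite extensions of function fields
-/

set_option autoImplicit false
set_option linter.style.haveILetI false
set_option linter.unusedSectionVars false

namespace Fermat.Agent.FF

open AlgebraicCurve IsDedekindDomain WithZero Fermat.Agent.Curve IntermediateField

variable {K F F' : Type*} [Field K] [IsAlgClosed K] [CharZero K] [Field F] [Field F']
  [Algebra K F] [Algebra K F']

section Inst

variable [Algebra F F'] [IsScalarTower K F F'] [FiniteDimensional F F']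

theorem residue_const (t : F) [FiniteDimensional K⟮t⟯ F] (v : Place K F)
    (r : v.toValuationSubring) : ∃ a : K,
      r - algebraMap K v.toValuationSubring a ∈ IsLocalRing.maximalIdeal v.toValuationSubring := by
  obtain ⟨a, ha⟩ := exists_const t v r.2
  refine ⟨a, ?_⟩
  rw [mem_nonunits_iff_ord_pos]
  exact ha

theorem finite_adjoin_algebraMap (t : F) [FiniteDimensional K⟮t⟯ F] :
    FiniteDimensional K⟮algebraMap F F' t⟯ F' := by
  let ψ : F →ₐ[K] F' := IsScalarTower.toAlgHom K F F'
  have hmap : (K⟮t⟯).map ψ = K⟮algebraMap F F' t⟯ := by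
    rw [adjoin_map, Set.image_singleton]
    rfl
  let e : K⟮t⟯ ≃ₐ[K] (K⟮t⟯).map ψ := (K⟮t⟯).equivMap ψ
  let φ : K⟮t⟯ →+* K⟮algebraMap F F' t⟯ :=
    (IntermediateField.inclusion hmap.le).toRingHom.comp e.toRingEquiv.toRingHom
  letI : Algebra K⟮t⟯ K⟮algebraMap F F' t⟯ := φ.toAlgebra
  haveI : IsScalarTower K⟮t⟯ F F' := inferInstance
  haveI : IsScalarTower K⟮t⟯ K⟮algebraMap F F' t⟯ F' := IsScalarTower.of_algebraMap_eq fun _ => rfl
  haveI : Module.Finite K⟮t⟯ F' := Module.Finite.trans F F'
  exact Module.Finite.of_restrictScalars_finite K⟮t⟯ _ _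

theorem inertiaDeg_eq_one (t : F) [FiniteDimensional K⟮t⟯ F] [Algebra.IsIntegral F F']
    (w : Place K F') : w.inertiaDeg F = 1 := by
  haveI := finite_adjoin_algebraMap (K := K) (F' := F') t
  have h1 := deg_eq_one (K := K) (algebraMap F F' t) w
  have h2 := deg_eq_one (K := K) t (w.restrict F)
  have h3 := w.deg_restrict_mul_inertiaDeg (F := F)
  rw [h1, h2, one_mul] at h3
  exact h3

theorem fundamentalIdentity (t : F) [FiniteDimensional K⟮t⟯ F] [Algebra.IsIntegral F F']
    [HasPrincipalDivisors K F'] : FundamentalIdentity K F F' := by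
  constructor
  intro v
  haveI := finite_adjoin_algebraMap (K := K) (F' := F') t
  obtain ⟨hfin, h1, -⟩ := places_above (F' := F') v (residue_const t v)
  rw [deg_eq_one (K := K) t v, Nat.cast_one, mul_one, ← h1]
  apply Finset.sum_congr
  · ext w
    rw [Place.mem_fiber, Set.Finite.mem_toFinset]
    rfl
  · intro w _
    rw [deg_eq_one (K := K) (algebraMap F F' t) w, Nat.cast_one, mul_one]

theorem pushforwardNormFormula (t : F) [FiniteDimensional K⟮t⟯ F] :
    Divisor.PushforwardNormFormula K F F' := by
  intro f hf D hD v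
  classical
  obtain ⟨hfin, -, h1⟩ := places_above (F' := F') v (residue_const t v)
  rw [← h1 f hf, Divisor.pushforward_apply, ← Finset.sum_filter]
  trans ∑ w ∈ D.support.filter (fun w => w.restrict F = v), D w
  · exact Finset.sum_congr rfl fun w _ => by rw [inertiaDeg_eq_one t w]; simp
  · rw [Finset.sum_congr rfl (fun w _ => hD w)]
    apply Finset.sum_subset
    · intro w hw
      rw [Finset.mem_filter] at hw
      rw [Set.Finite.mem_toFinset]
      exact hw.2
    · intro w hw1 hw2
      rw [Set.Finite.mem_toFinset] at hw1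
      rw [Finset.mem_filter, not_and_or, Finsupp.notMem_support_iff] at hw2
      rcases hw2 with h | h
      · rw [← hD w, h]
      · exact absurd hw1 h

end Inst

theorem fundamentalIdentityAlong (φ : F →ₐ[K] F') (hφ : φ.toRingHom.IsIntegral)
    (hfin : FiniteAlong K φ) (t : F) [FiniteDimensional K⟮t⟯ F] [HasPrincipalDivisors K F'] :
    FundamentalIdentityAlong K φ hφ := by
  letI := algebraAlong φ
  haveI := isScalarTower_along φ
  haveI := isIntegral_along φ hφ
  haveI : Module.Finite F F' := hfin
  exact fundamentalIdentity t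

theorem normFormulaAlong (φ : F →ₐ[K] F') (hfin : FiniteAlong K φ)
    (t : F) [FiniteDimensional K⟮t⟯ F] : NormFormulaAlong K φ hfin := by
  letI := algebraAlong φ
  haveI := isScalarTower_along φ
  haveI : Module.Finite F F' := hfin
  exact pushforwardNormFormula t

/-- If `F'` is finite over `K(φ t)`, then `φ` is finite. -/
theorem finiteAlong (φ : F →ₐ[K] F') (t : F) [FiniteDimensional K⟮φ t⟯ F'] :
    FiniteAlong K φ := by
  letI := algebraAlong φ
  haveI := isScalarTower_along φ
  have hmap : (K⟮t⟯).map φ = K⟮φ t⟯ := by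
    rw [adjoin_map, Set.image_singleton]
  have hle : ∀ x : K⟮φ t⟯, ∃ y : F, φ y = (x : F') := by
    intro x
    obtain ⟨y, -, hy⟩ := hmap.ge x.2
    exact ⟨y, hy⟩
  obtain ⟨s, hs⟩ := (inferInstance : Module.Finite K⟮φ t⟯ F')
  refine ⟨s, ?_⟩
  rw [eq_top_iff]
  intro x _
  have hx : x ∈ Submodule.span K⟮φ t⟯ (s : Set F') := hs ▸ Submodule.mem_top
  induction hx using Submodule.span_induction with
  | mem x h => exact Submodule.subset_span h
  | zero => exact Submodule.zero_mem _
  | add x y _ _ hx hy => exact Submodule.add_mem _ (hx trivial) (hy trivial)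
  | smul a x _ hx =>
    obtain ⟨y, hy⟩ := hle a
    have : a • x = y • x := by
      rw [Algebra.smul_def, Algebra.smul_def]
      change (a : F') * x = φ y * x
      rw [hy]
    rw [this]
    exact Submodule.smul_mem _ _ (hx trivial)

end Fermat.Agent.FF
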