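import Mathlib.RingTheory.Ideal.Norm.RelNorm
import Fermat.Agent.Curve.Residue
import Fermat.Prelude.Def_AlgebraicCurve_Correspondence

/-!
# The norm formula for places of function fields
-/

set_option autoImplicit false
set_option linter.deprecated false
set_option linter.style.haveILetI false
set_option linter.unusedSectionVars false

namespace Fermat.Agent.FF

open AlgebraicCurve IsDedekindDomain WithZero Fermat.Agent.Curve

section Card

variable {R B : Type*} [CommRing R] [CommRing B] [IsDomain R] [IsDiscreteValuationRing R]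
  [IsDedekindDomain B] [Algebra R B] [Module.Finite R B] [Module.IsTorsionFree R B]

open UniqueFactorizationMonoid in
theorem relNorm_eq_pow_card (h1 : ∀ P : Ideal B, P.IsPrime → P ≠ ⊥ →
      Ideal.relNorm R P = IsLocalRing.maximalIdeal R)
    (I : Ideal B) (hI : I ≠ ⊥) :
    Ideal.relNorm R I = IsLocalRing.maximalIdeal R ^ (Multiset.card (normalizedFactors I)) := by
  induction I using UniqueFactorizationMonoid.induction_on_prime with
  | h₁ => exact absurd rfl hI
  | h₂ x hx =>
    have : x = 1 := by simpa using hx
    rw [this, normalizedFactors_one, map_one, Multiset.card_zero, pow_zero]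
  | h₃ a p ha hp ih =>
    have hp' : p.IsPrime := Ideal.isPrime_of_prime hp
    have hp0 : p ≠ ⊥ := hp.ne_zero
    rw [map_mul, h1 p hp' hp0, ih ha, normalizedFactors_mul hp0 ha,
      Multiset.card_add, normalizedFactors_irreducible hp.irreducible, Multiset.card_singleton,
      pow_add, pow_one]

end Card

section Rel

variable {K F F' : Type*} [Field K] [IsAlgClosed K] [CharZero K] [Field F] [Field F']
  [Algebra K F] [Algebra K F'] [Algebra F F'] [IsScalarTower K F F'] [FiniteDimensional F F']

theorem charZero_of_algebra (K F : Type*) [Field K] [CharZero K] [Field F] [Algebra K F] :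
    CharZero F := charZero_of_injective_algebraMap (algebraMap K F).injective

open UniqueFactorizationMonoid in
/-- Places above `v`: finiteness, `∑ e = n`, and the norm formula. -/
theorem places_above (v : Place K F)
    (hres : ∀ r : v.toValuationSubring, ∃ a : K,
      r - algebraMap K v.toValuationSubring a ∈ IsLocalRing.maximalIdeal v.toValuationSubring) :
    ∃ hfin : {w : Place K F' | w.restrict F = v}.Finite,
      (∑ w ∈ hfin.toFinset, (w.ramificationIndex F : ℤ) = Module.finrank F F') ∧
      ∀ x : F', x ≠ 0 → ∑ w ∈ hfin.toFinset, w.ord x = v.ord (Algebra.norm F x) := by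
  classical
  let R := v.toValuationSubring
  letI algRF : Algebra R F' := ((algebraMap F F').comp (algebraMap R F)).toAlgebra
  haveI : IsScalarTower R F F' := IsScalarTower.of_algebraMap_eq fun _ => rfl
  haveI : CharZero F := charZero_of_algebra K F
  haveI : Algebra.IsSeparable F F' := inferInstance
  haveI : IsScalarTower K R F' := by
    refine IsScalarTower.of_algebraMap_eq fun a => ?_
    change algebraMap K F' a = algebraMap F F' (algebraMap R F (algebraMap K R a))
    rw [← IsScalarTower.algebraMap_apply K R F, ← IsScalarTower.algebraMap_apply]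
  let B := integralClosure R F'
  haveI : IsFractionRing B F' := integralClosure.isFractionRing_of_finite_extension F F'
  haveI : IsDedekindDomain B := integralClosure.isDedekindDomain R F F'
  haveI : Module.Finite R B := IsIntegralClosure.finite R F F' B
  haveI : IsScalarTower K B F' := by
    refine IsScalarTower.of_algebraMap_eq fun a => ?_
    rfl
  have hinjRF : Function.Injective (algebraMap R F') := by
    rw [IsScalarTower.algebraMap_eq R F F']
    exact (algebraMap F F').injective.comp (IsFractionRing.injective R F)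
  have hinjRB : Function.Injective (algebraMap R B) := by
    intro a b hab
    apply hinjRF
    rw [IsScalarTower.algebraMap_apply R B F', IsScalarTower.algebraMap_apply R B F', hab]
  haveI : FaithfulSMul R B := (faithfulSMul_iff_algebraMap_injective R B).2 hinjRB
  haveI : Module.IsTorsionFree R B := inferInstance
  haveI : CharZero (FractionRing R) :=
    charZero_of_algebra K (FractionRing R)
  haveI : PerfectField (FractionRing R) := inferInstance
  obtain ⟨ϖ, hϖ⟩ := exists_uniformizer v
  set p : Ideal R := IsLocalRing.maximalIdeal R with hp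
  have hpspan : p = Ideal.span {ϖ} := hϖ.maximalIdeal_eq
  have hpmax : p.IsMaximal := IsLocalRing.maximalIdeal.isMaximal R
  have hp0 : p ≠ ⊥ := by
    rw [hpspan, ne_eq, Ideal.span_singleton_eq_bot]
    exact hϖ.ne_zero
  have hϖF : algebraMap R F' ϖ ≠ 0 := by
    rw [ne_eq, map_eq_zero_iff _ hinjRF]
    exact hϖ.ne_zero
  have hϖB : algebraMap R B ϖ ≠ 0 := by
    rw [ne_eq, map_eq_zero_iff _ hinjRB]
    exact hϖ.ne_zero
  have hmemP : ∀ P, P ∈ IsDedekindDomain.primesOverFinset p B ↔ P.IsPrime ∧ P.LiesOver p :=
    fun P => IsDedekindDomain.mem_primesOverFinset_iff hp0 B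
  have hPne : ∀ P ∈ IsDedekindDomain.primesOverFinset p B, P ≠ ⊥ := by
    intro P hP
    obtain ⟨h1, h2⟩ := (hmemP P).1 hP
    exact Ideal.ne_bot_of_liesOver_of_ne_bot hp0 P
  have hover : ∀ P : Ideal B, P.IsPrime → P ≠ ⊥ → P.LiesOver p := by
    intro P hP hP0
    haveI := hP
    constructor
    have h1 : P.under R ≠ ⊥ := by
      intro h
      exact hP0 (Ideal.eq_bot_of_comap_eq_bot h)
    have h2 : (P.under R).IsPrime := Ideal.IsPrime.under R P
    have h3 : (P.under R).IsMaximal := Ring.DimensionLEOne.maximalOfPrime h1 h2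
    exact (IsLocalRing.eq_maximalIdeal h3).symm
  -- the place attached to a prime
  let pl : (P : Ideal B) → P ∈ IsDedekindDomain.primesOverFinset p B → Place K F' := fun P hP =>
    Place.ofHeightOneSpectrum (K := K) (F := F')
      (⟨P, ((hmemP P).1 hP).1, hPne P hP⟩ : HeightOneSpectrum B)
  have hval : ∀ P hP (b : B), b ≠ 0 → (pl P hP).ord (algebraMap B F' b) =
      -WithZero.log ((⟨P, ((hmemP P).1 hP).1, hPne P hP⟩ : HeightOneSpectrum B).intValuation b) := by
    intro P hP b hb
    have hb' : algebraMap B F' b ≠ 0 := by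
      rw [ne_eq, map_eq_zero_iff _ (IsFractionRing.injective B F')]
      exact hb
    rw [ord_ofHeightOneSpectrum _ hb', HeightOneSpectrum.valuation_of_algebraMap]
  have hBmem : ∀ P hP (b : B), algebraMap B F' b ∈ (pl P hP).toValuationSubring := by
    intro P hP b
    change algebraMap B F' b ∈ (Place.ofHeightOneSpectrum (K := K) (F := F') _).toValuationSubring
    rw [Place.ofHeightOneSpectrum_toValuationSubring, Valuation.mem_valuationSubring_iff]
    exact HeightOneSpectrum.valuation_le_one _ _
  have hpos : ∀ P hP (b : B), b ≠ 0 → (0 < (pl P hP).ord (algebraMap B F' b) ↔ b ∈ P) := by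
    intro P hP b hb
    rw [hval P hP b hb]
    have h1 := HeightOneSpectrum.intValuation_lt_one_iff_mem
      (⟨P, ((hmemP P).1 hP).1, hPne P hP⟩ : HeightOneSpectrum B) b
    rw [← h1, neg_pos, ← WithZero.log_one,
      WithZero.log_lt_log (HeightOneSpectrum.intValuation_ne_zero _ b hb) one_ne_zero]
  have hcount : ∀ P hP (b : B), b ≠ 0 → (pl P hP).ord (algebraMap B F' b) =
      ((normalizedFactors (Ideal.span {b})).count P : ℤ) := by
    intro P hP b hb
    have h0 : 0 ≤ (pl P hP).ord (algebraMap B F' b) := ord_nonneg_of_mem _ (hBmem P hP b)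
    obtain ⟨e, he⟩ := Int.eq_ofNat_of_zero_le h0
    rw [he]
    have key : ∀ n : ℕ, b ∈ P ^ n ↔ n ≤ e := by
      intro n
      have h1 := HeightOneSpectrum.intValuation_le_pow_iff_mem
        (⟨P, ((hmemP P).1 hP).1, hPne P hP⟩ : HeightOneSpectrum B) b n
      change _ ↔ b ∈ P ^ n at h1
      rw [← h1]
      have h2 := hval P hP _ hb
      rw [he] at h2
      have h3 : (⟨P, ((hmemP P).1 hP).1, hPne P hP⟩ : HeightOneSpectrum B).intValuation
          b = exp (-(e : ℤ)) := by
        rw [← WithZero.exp_log (HeightOneSpectrum.intValuation_ne_zero _ _ hb)]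
        congr 1
        omega
      rw [h3, WithZero.exp_le_exp]
      omega
    haveI hPp : P.IsPrime := ((hmemP P).1 hP).1
    rw [Ideal.count_normalizedFactors_eq (p := P) (n := e)]
    · rw [Ideal.span_le, Set.singleton_subset_iff]
      exact (key e).2 le_rfl
    · rw [Ideal.span_le, Set.singleton_subset_iff]
      intro h
      have := (key (e + 1)).1 h
      omega
  have hplmem : ∀ P hP, (pl P hP).restrict F = v := by
    intro P hP
    symm
    apply place_eq_of_le
    intro x hx
    change algebraMap F F' x ∈ (pl P hP).toValuationSubring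
    exact hBmem P hP (algebraMap R B ⟨x, hx⟩)
  have hinj : ∀ P hP Q hQ, pl P hP = pl Q hQ → P = Q := by
    intro P hP Q hQ h
    ext b
    rcases eq_or_ne b 0 with rfl | hb
    · simp
    · rw [← hpos P hP b hb, ← hpos Q hQ b hb, h]
  have hsurj2 : ∀ w : Place K F', w.restrict F = v → ∃ P hP, pl P hP = w := by
    intro w hw
    have hR : ∀ r : R, algebraMap R F' r ∈ w.toValuationSubring := by
      intro r
      have : (r : F) ∈ (w.restrict F).toValuationSubring := by rw [hw]; exact r.2
      exact this
    -- `B` is contained in the valuation ring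
    have hB : ∀ b : B, algebraMap B F' b ∈ w.toValuationSubring := by
      intro b
      have hb : IsIntegral R (b : F') := b.2
      obtain ⟨q, hq, hq0⟩ := hb
      have h2 : IsIntegral w.toValuationSubring (b : F') := by
        let φ : R →+* w.toValuationSubring :=
          (algebraMap R F').codRestrict w.toValuationSubring.toSubring hR
        refine ⟨q.map φ, hq.map φ, ?_⟩
        rw [Polynomial.eval₂_map]
        exact hq0
      obtain ⟨y, hy⟩ := IsIntegrallyClosed.isIntegral_iff.mp h2
      change (b : F') ∈ _
      rw [← hy]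
      exact y.2
    let ι : B →+* w.toValuationSubring :=
      (algebraMap B F').codRestrict w.toValuationSubring.toSubring hB
    let P : Ideal B := (IsLocalRing.maximalIdeal w.toValuationSubring).comap ι
    have hPprime : P.IsPrime := Ideal.comap_isPrime ι _
    have hPmem : ∀ b : B, b ≠ 0 → (b ∈ P ↔ 0 < w.ord (algebraMap B F' b)) := by
      intro b hb
      have hb' : algebraMap B F' b ≠ 0 := by
        rw [ne_eq, map_eq_zero_iff _ (IsFractionRing.injective B F')]
        exact hb
      change ι b ∈ IsLocalRing.maximalIdeal w.toValuationSubring ↔ _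
      rw [mem_nonunits_iff_ord_pos]
      have : ((ι b : w.toValuationSubring) : F') = algebraMap B F' b := rfl
      rw [this]
      exact ⟨fun h => h.resolve_left hb', Or.inr⟩
    have hϖP : algebraMap R B ϖ ∈ P := by
      rw [hPmem _ hϖB]
      have h1 : algebraMap B F' (algebraMap R B ϖ) = algebraMap F F' (ϖ : F) := rfl
      rw [h1, w.ord_restrict, hw, v.ord_coe_irreducible hϖ, mul_one]
      exact_mod_cast w.ramificationIndex_pos (F := F)
    have hP0 : P ≠ ⊥ := by
      intro h
      rw [h] at hϖP
      exact hϖB hϖP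
    have hP : P ∈ IsDedekindDomain.primesOverFinset p B :=
      (hmemP P).2 ⟨hPprime, hover P hPprime hP0⟩
    refine ⟨P, hP, ?_⟩
    apply place_eq_of_le
    intro x hx
    rcases eq_or_ne x 0 with rfl | hx0
    · exact zero_mem _
    change x ∈ (Place.ofHeightOneSpectrum (K := K) (F := F') _).toValuationSubring at hx
    rw [Place.ofHeightOneSpectrum_toValuationSubring, Valuation.mem_valuationSubring_iff] at hx
    obtain ⟨n, d, hnd⟩ := HeightOneSpectrum.exists_primeCompl_mul_eq_of_integer _ _ hx
    have hd : (d : B) ∉ P := d.2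
    have hd0 : (d : B) ≠ 0 := fun h => hd (h ▸ P.zero_mem)
    have hdF : algebraMap B F' d ≠ 0 := by
      rw [ne_eq, map_eq_zero_iff _ (IsFractionRing.injective B F')]
      exact hd0
    have hordd : w.ord (algebraMap B F' d) = 0 := by
      apply le_antisymm
      · by_contra hcon
        push Not at hcon
        exact hd ((hPmem _ hd0).2 hcon)
      · exact ord_nonneg_of_mem w (hB _)
    apply mem_of_ord_nonneg
    have h3 := w.ord_mul hx0 hdF
    rw [hordd, add_zero, hnd] at h3
    rw [← h3]
    exact ord_nonneg_of_mem w (hB _)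
  -- inertia
  have hinert : ∀ P : Ideal B, P.IsPrime → P.LiesOver p → P.inertiaDeg R = 1 := by
    intro P h1 h2
    haveI := h1
    haveI := h2
    haveI := hpmax
    haveI : P.IsMaximal := Ring.DimensionLEOne.maximalOfPrime
      (Ideal.ne_bot_of_liesOver_of_ne_bot hp0 P) h1
    rw [← Ideal.inertiaDeg'_eq_inertiaDeg p P, Ideal.inertiaDeg'_algebraMap]
    haveI : Module.Finite (R ⧸ p) (B ⧸ P) := inferInstance
    have hKR : Function.Surjective (algebraMap K (R ⧸ p)) := by
      intro y
      obtain ⟨r, rfl⟩ := Ideal.Quotient.mk_surjective y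
      obtain ⟨a, ha⟩ := hres r
      refine ⟨a, ?_⟩
      rw [IsScalarTower.algebraMap_apply K R (R ⧸ p)]
      symm
      exact (Ideal.Quotient.eq).2 ha
    have e1 : algebraMap K (B ⧸ P) = (algebraMap (R ⧸ p) (B ⧸ P)).comp (algebraMap K (R ⧸ p)) := by
      ext a
      have e2 : algebraMap K B a = algebraMap R B (algebraMap K R a) := by
        apply Subtype.ext
        change algebraMap K F' a = algebraMap R F' (algebraMap K R a)
        rw [← IsScalarTower.algebraMap_apply]
      have e3 : algebraMap K (B ⧸ P) a = Ideal.Quotient.mk P (algebraMap K B a) := rfl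
      rw [e3, e2]
      rfl
    haveI : IsScalarTower K (R ⧸ p) (B ⧸ P) := IsScalarTower.of_algebraMap_eq' e1
    haveI : Algebra.IsIntegral K (R ⧸ p) := ⟨RingHom.isIntegral_of_surjective _ hKR⟩
    haveI : Algebra.IsIntegral (R ⧸ p) (B ⧸ P) := Algebra.IsIntegral.of_finite _ _
    haveI : Algebra.IsIntegral K (B ⧸ P) := Algebra.IsIntegral.trans (R ⧸ p)
    letI : Field (R ⧸ p) := Ideal.Quotient.field p
    have hsurj3 : Function.Surjective (algebraMap K (B ⧸ P)) :=
      (IsAlgClosed.algebraMap_bijective_of_isIntegral (k := K) (K := B ⧸ P)).2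
    have hbij : Function.Bijective (algebraMap (R ⧸ p) (B ⧸ P)) := by
      refine ⟨(algebraMap (R ⧸ p) (B ⧸ P)).injective, ?_⟩
      intro y
      obtain ⟨a, rfl⟩ := hsurj3 y
      exact ⟨algebraMap K (R ⧸ p) a, by rw [e1]; rfl⟩
    rw [← Module.finrank_self (R ⧸ p)]
    exact ((AlgEquiv.ofBijective (Algebra.ofId (R ⧸ p) (B ⧸ P)) hbij).toLinearEquiv.finrank_eq).symm
  haveI := hpmax
  have hrel : ∀ P : Ideal B, P.IsPrime → P ≠ ⊥ → Ideal.relNorm R P = p := by
    intro P hP hP0
    haveI := hP
    haveI := hover P hP hP0
    haveI : P.IsMaximal := Ring.DimensionLEOne.maximalOfPrime hP0 hP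
    rw [Ideal.relNorm_eq_pow_of_isMaximal P p, hinert P hP inferInstance, pow_one]
  -- the set is finite
  let Sf : Finset (Place K F') :=
    (IsDedekindDomain.primesOverFinset p B).attach.image fun P => pl P.1 P.2
  have hSf : ∀ w, w ∈ Sf ↔ w ∈ {w : Place K F' | w.restrict F = v} := by
    intro w
    simp only [Sf, Finset.mem_image, Finset.mem_attach, true_and, Subtype.exists,
      Set.mem_setOf_eq]
    constructor
    · rintro ⟨P, hP, rfl⟩
      exact hplmem P hP
    · intro hv
      exact hsurj2 w hv
  have hfin : {w : Place K F' | w.restrict F = v}.Finite :=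
    Set.Finite.ofFinset Sf hSf
  have hfe : hfin.toFinset = Sf := by
    ext v
    rw [Set.Finite.mem_toFinset, hSf]
  have hint : ∀ b : B, b ≠ 0 →
      ∑ w ∈ hfin.toFinset, w.ord (algebraMap B F' b) = v.ord (Algebra.norm F (algebraMap B F' b)) := by
    intro b hb
    have hb0 : Ideal.span {b} ≠ ⊥ := by
      rw [ne_eq, Ideal.span_singleton_eq_bot]
      exact hb
    rw [hfe, Finset.sum_image (by
      intro P _ Q _ h
      exact Subtype.ext (hinj _ P.2 _ Q.2 h))]
    rw [Finset.sum_congr rfl (fun P _ => hcount P.1 P.2 b hb)]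
    rw [Finset.sum_attach (IsDedekindDomain.primesOverFinset p B)
      (fun P => ((normalizedFactors (Ideal.span {b})).count P : ℤ))]
    rw [← Nat.cast_sum, Multiset.sum_count_eq_card]
    · have h1 := relNorm_eq_pow_card (R := R) (B := B) hrel (Ideal.span {b}) hb0
      rw [Ideal.relNorm_singleton] at h1
      have h2 : algebraMap R F (Algebra.intNorm R B b) = Algebra.norm F (algebraMap B F' b) :=
        Algebra.algebraMap_intNorm (A := R) (K := F) (L := F') (B := B) b
      rw [← h2]
      change _ = v.ord ((Algebra.intNorm R B b : R) : F)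
      have h3 : Ideal.span {Algebra.intNorm R B b} =
          Ideal.span {ϖ ^ (Multiset.card (normalizedFactors (Ideal.span {b})))} := by
        rw [h1, ← hp, hpspan, Ideal.span_singleton_pow]
      obtain ⟨u, hu⟩ := Ideal.span_singleton_eq_span_singleton.1 h3.symm
      rw [← hu]
      have h4 := v.ord_unit_smul_zpow u hϖ (Multiset.card (normalizedFactors (Ideal.span {b})) : ℕ)
      rw [zpow_natCast, mul_comm] at h4
      push_cast
      exact h4.symm
    · intro P hP
      have hP1 := prime_of_normalized_factor P hP
      have hP2 : P.IsPrime := Ideal.isPrime_of_prime hP1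
      exact (hmemP P).2 ⟨hP2, hover P hP2 hP1.ne_zero⟩
  have hnorm : ∀ x : F', x ≠ 0 →
      ∑ w ∈ hfin.toFinset, w.ord x = v.ord (Algebra.norm F x) := by
    intro x hx
    obtain ⟨b, c, hc, hbc⟩ := IsFractionRing.div_surjective (A := B) x
    have hc0 : c ≠ 0 := nonZeroDivisors.ne_zero hc
    have hb0 : b ≠ 0 := by
      rintro rfl
      rw [map_zero, zero_div] at hbc
      exact hx hbc.symm
    have hcF : algebraMap B F' c ≠ 0 := by
      rw [ne_eq, map_eq_zero_iff _ (IsFractionRing.injective B F')]
      exact hc0
    have hbF : algebraMap B F' b ≠ 0 := by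
      rw [ne_eq, map_eq_zero_iff _ (IsFractionRing.injective B F')]
      exact hb0
    have hmul : Algebra.norm F (algebraMap B F' b) =
        Algebra.norm F (algebraMap B F' b / algebraMap B F' c) * Algebra.norm F (algebraMap B F' c) := by
      rw [← map_mul, div_mul_cancel₀ _ hcF]
    have hbc0 : Algebra.norm F (algebraMap B F' b / algebraMap B F' c) ≠ 0 :=
      Algebra.norm_ne_zero_iff.2 (div_ne_zero hbF hcF)
    have h5 := v.ord_mul hbc0 (Algebra.norm_ne_zero_iff.2 hcF)
    rw [← hmul, ← hint b hb0, ← hint c hc0] at h5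
    rw [← hbc, eq_comm, ← sub_eq_iff_eq_add.2 h5, ← Finset.sum_sub_distrib, eq_comm]
    exact Finset.sum_congr rfl fun w _ => ord_div w hbF hcF
  refine ⟨hfin, ?_, hnorm⟩
  have h1 := hnorm (algebraMap F F' (ϖ : F)) hϖF
  rw [Algebra.norm_algebraMap, ord_pow, v.ord_coe_irreducible hϖ, mul_one] at h1
  rw [← h1]
  apply Finset.sum_congr rfl
  intro w hw
  rw [Set.Finite.mem_toFinset] at hw
  have hw' : w.restrict F = v := hw
  rw [w.ord_restrict, hw', v.ord_coe_irreducible hϖ, mul_one]

end Rel

end Fermat.Agent.FF
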